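import Fermat.Agent.S33.HeckeP.Contract
import Fermat.Agent.DR.Hecke.Degen

/-!
# S33 / HeckeP : OUTPUT.  The `p`-new classes with trivial reduction are deep.

Level `M q`, `q` a prime not dividing `M`, `A` a place of `ℚ̄` over `q`, ANY exponent `m > 0` (in S33: `m = q ^ K`).
`R1 = Conc.R1 A M q ..` (Gauss valuation at `∞`), `R2 = Conc.R2 A M q .. = R1 ∘ w`.

* `newKV M q m`        : the `q`-new part `ker α_* ∩ ker α_* w` of `KV Kbar (FN (M * q)) m` (interface operators `DR.alphaKV`, `DR.wKV`);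
                         it is stable under `G_ℚ`, `w`, the Hecke operators (`smul_mem_newKV`, `wKV_mem_newKV`, `heckeT_mem_newKV`);
* `deep_R1_of_new`, `deep_R2_of_new`, `deep_of_new` : **`newKV ∩ Kone R_i ⊆ Deep R_i`**;
* `inertia_smul_sub_mem` : `(τ - 1) KV ⊆ Kone R1 ∩ Kone R2` for `τ` in the inertia group;
* `inertia_smul_mem_Deep₁/₂` : `Deep R_i` is stable under the inertia group.
-/

set_option autoImplicit false
set_option linter.unusedSectionVars false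
set_option linter.style.haveILetI false

noncomputable section

namespace Fermat.Agent.S33.HeckeP

open AlgebraicCurve ModularCurve Fermat.Agent.S24 Fermat.Agent.GAL Fermat.Agent.GAL.Hecke
  Fermat.Agent.GAL.Gauss Fermat.Agent.DR Fermat.Agent.DR.Gal Fermat.Agent.DR.Hecke

variable (A : ValuationSubring Kbar) (M q : ℕ) [NeZero M] [NeZero q] (hq : q.Prime)
  (hqM : ¬ q ∣ M) (hA : A.LiesOverPrime q)

/-- a class of `Kone R1` has positive depth. -/
theorem exists_mem_Klev_of_mem_Kone {m : ℕ} {x : KV Kbar (FN (M * q)) m}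
    (hx : x ∈ Kone (Conc.R1 A M q hq hqM hA) m) :
    ∃ c ∈ A.nonunits, c ≠ 0 ∧ x ∈ Klev (Conc.R1 A M q hq hqM hA) m c := by
  obtain ⟨f, rfl, hf⟩ := hx
  set R := Conc.R1 A M q hq hqM hA with hR
  have hfO : ((f : (FN (M * q))ˣ) : FN (M * q)) ∈ R.O :=
    R.mem_of_red_ne_zero (by rw [hf]; exact one_ne_zero)
  by_cases h1 : ((f : (FN (M * q))ˣ) : FN (M * q)) - 1 = 0
  · refine ⟨(q : Kbar), hA, Nat.cast_ne_zero.2 hq.ne_zero, f, rfl, hf, 0, R.O.zero_mem, ?_⟩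
    rw [smul_zero, add_zero]
    exact sub_eq_zero.1 h1
  · obtain ⟨a, ha, har⟩ := Conc.R1_scale A M q hq hqM hA _ h1
    have haA : a ∉ A := by
      intro haA
      apply har
      rw [← hR, R.red_mul (R.algebraMap_mem a haA) (R.O.sub_mem hfO R.O.one_mem),
        R.red_sub hfO R.O.one_mem, hf, R.red_one, sub_self, mul_zero]
    refine ⟨a⁻¹, ?_, inv_ne_zero ha, f, rfl, hf, _, R.mem_of_red_ne_zero har, ?_⟩
    · rw [ValuationSubring.mem_nonunits_iff_or]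
      right
      rwa [inv_inv]
    · rw [Algebra.smul_def, ← mul_assoc, ← map_mul, inv_mul_cancel₀ ha, map_one]
      ring

include hq hA in
/-- `ζ - 1` is a nonunit of `A`. -/
theorem zeta_sub_one_mem_nonunits {ζ : Kbar} (hζ : IsPrimitiveRoot ζ q) : ζ - 1 ∈ A.nonunits := by
  have hζ0 := hζ.ne_zero hq.ne_zero
  have h1 : ζ ∈ A := mem_of_pow_eq_one' A hq.pos hζ.pow_eq_one
  have h2 : ζ⁻¹ ∈ A := mem_of_pow_eq_one' A hq.pos (by rw [inv_pow, hζ.pow_eq_one, inv_one])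
  have h3 := residue_eq_one_of_pow_eq_one A hq hA (Conc.Series_unit A hζ0 h1 h2) (by
    apply Units.ext
    apply Subtype.ext
    rw [Units.val_pow_eq_pow_val, SubmonoidClass.coe_pow]
    exact hζ.pow_eq_one)
  rw [ValuationSubring.mem_nonunits_iff_exists_mem_maximalIdeal]
  refine ⟨A.sub_mem h1 A.one_mem, ?_⟩
  rw [← IsLocalRing.residue_eq_zero_iff]
  have : (⟨ζ - 1, A.sub_mem h1 A.one_mem⟩ : ↥A) = (⟨ζ, h1⟩ : ↥A) - 1 := rfl
  rw [this, map_sub, map_one, sub_eq_zero]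
  exact h3

include hq in
/-- `ζ - 1` divides `q` in `A`. -/
theorem zeta_sub_one_dvd {ζ : Kbar} (hζ : IsPrimitiveRoot ζ q) :
    ∃ a ∈ A, (q : Kbar) = (ζ - 1) * a := by
  have hex : ∀ j : ℕ, ∃ a ∈ A, ζ ^ j - 1 = (ζ - 1) * a := fun j => by
    have := exists_zpow_sub_one A hq.pos hζ.pow_eq_one (j : ℤ)
    rwa [zpow_natCast] at this
  choose a ha h using hex
  refine ⟨-∑ j ∈ Finset.range q, a j, A.neg_mem _ (A.toSubring.sum_mem fun j _ => ha j), ?_⟩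
  have h0 : ∑ j ∈ Finset.range q, ζ ^ j = 0 := hζ.geom_sum_eq_zero hq.one_lt
  have h1 : ∑ j ∈ Finset.range q, (ζ ^ j - 1) = (ζ - 1) * ∑ j ∈ Finset.range q, a j := by
    rw [Finset.mul_sum]
    exact Finset.sum_congr rfl fun j _ => h j
  rw [Finset.sum_sub_distrib, h0, Finset.sum_const, Finset.card_range, nsmul_eq_mul, mul_one] at h1
  linear_combination -h1

section Frob

variable [Fact q.Prime] [CharP (IsLocalRing.ResidueField ↥A) q]
  [PerfectRing (IsLocalRing.ResidueField ↥A) q]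

/-- iteration of the contraction. -/
theorem iterate_UqKV_mem_Klev {ζ : Kbar} (hζ : IsPrimitiveRoot ζ q) {c e : Kbar} (hc : c ∈ A)
    (he : e ∈ A) (hc0 : c ≠ 0) (he0 : e ≠ 0) (h1 : ∃ a ∈ A, ζ - 1 = e * a)
    (h2 : ∃ a ∈ A, (q : Kbar) = e * a) (h3 : ∃ a ∈ A, c ^ (q - 1) = e * a) {m : ℕ}
    {x : KV Kbar (FN (M * q)) m} (hx : x ∈ Klev (Conc.R1 A M q hq hqM hA) m c) (n : ℕ) :
    (UqKV M q hq hqM m)^[n] x ∈ Klev (Conc.R1 A M q hq hqM hA) m (c * e ^ n) := by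
  induction n with
  | zero => simpa using hx
  | succ n ih =>
    rw [Function.iterate_succ_apply', pow_succ, ← mul_assoc]
    refine UqKV_mem_Klev A M q hq hqM hA hζ (A.mul_mem _ _ hc (pow_mem he n)) he
      (mul_ne_zero hc0 (pow_ne_zero n he0)) he0 h1 h2 ?_ ih
    obtain ⟨a, ha, h⟩ := h3
    exact ⟨a * (e ^ n) ^ (q - 1), A.mul_mem _ _ ha (pow_mem (pow_mem he n) _), by
      rw [mul_pow, h]; ring⟩

/-- **A class of `Kone R1` which is fixed by `U_q ^ r`, `r > 0`, is deep.** -/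
theorem mem_Deep_of_iterate_eq {m : ℕ} {x : KV Kbar (FN (M * q)) m}
    (hx : x ∈ Kone (Conc.R1 A M q hq hqM hA) m) {r : ℕ} (hr : 0 < r)
    (hU : (UqKV M q hq hqM m)^[r] x = x) : x ∈ Deep (Conc.R1 A M q hq hqM hA) m := by
  obtain ⟨ζ, hζ⟩ := HasEnoughRootsOfUnity.exists_primitiveRoot Kbar q
  obtain ⟨c, hc, hc0, hxc⟩ := exists_mem_Klev_of_mem_Kone A M q hq hqM hA hx
  have hcA : c ∈ A := A.nonunits_subset hc
  have hl := zeta_sub_one_mem_nonunits A q hq hA hζ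
  have hl0 : ζ - 1 ≠ 0 := sub_ne_zero.2 (hζ.ne_one hq.one_lt)
  obtain ⟨d, hd, hqd⟩ := zeta_sub_one_dvd A q hq hζ
  have hcq0 : c ^ (q - 1) ≠ 0 := pow_ne_zero _ hc0
  have hcq : c ^ (q - 1) ∈ A.nonunits := by
    rw [ValuationSubring.mem_nonunits_iff] at hc ⊢
    rw [map_pow]
    exact pow_lt_one₀ zero_le hc (Nat.sub_ne_zero_of_lt hq.one_lt)
  -- the contraction factor
  obtain ⟨e, he, he0, h1, h3⟩ : ∃ e ∈ A.nonunits, e ≠ 0 ∧ (∃ a ∈ A, ζ - 1 = e * a) ∧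
      ∃ a ∈ A, c ^ (q - 1) = e * a := by
    rcases A.mem_or_inv_mem ((ζ - 1) / c ^ (q - 1)) with h | h
    · exact ⟨c ^ (q - 1), hcq, hcq0, ⟨_, h, by field_simp⟩, 1, A.one_mem, by ring⟩
    · refine ⟨ζ - 1, hl, hl0, ⟨1, A.one_mem, by ring⟩, _, h, ?_⟩
      rw [inv_div]
      field_simp
  have heA : e ∈ A := A.nonunits_subset he
  have h2 : ∃ a ∈ A, (q : Kbar) = e * a := by
    obtain ⟨a, ha, h⟩ := h1
    exact ⟨a * d, A.mul_mem _ _ ha hd, by rw [hqd, h]; ring⟩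
  have hfix : ∀ n : ℕ, (UqKV M q hq hqM m)^[r * n] x = x := by
    intro n
    rw [Function.iterate_mul]
    exact Function.iterate_fixed hU n
  rw [mem_Deep]
  intro b hb
  obtain ⟨s, hs⟩ := Conc.exists_pow_mul_mem_nonunits A q hq hA e he b⁻¹
  have key := iterate_UqKV_mem_Klev A M q hq hqM hA hζ hcA heA hc0 he0 h1 h2 h3 hxc (r * s)
  rw [hfix s] at key
  have hle : s ≤ r * s := Nat.le_mul_of_pos_left s hr
  refine Klev_mono (Conc.R1 A M q hq hqM hA) m (a := c * e ^ (r * s - s) * (e ^ s * b⁻¹)) ?_ ?_ key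
  · exact A.mul_mem _ _ (A.mul_mem _ _ hcA (pow_mem heA _)) (A.nonunits_subset hs)
  · have : e ^ (r * s) = e ^ (r * s - s) * e ^ s := by rw [← pow_add, Nat.sub_add_cancel hle]
    rw [this]
    field_simp

end Frob

/-! ### The two reductions and `w` -/

theorem isLev_R2_W {c : Kbar} {f : FN (M * q)} (hf : IsLev (Conc.R1 A M q hq hqM hA) c f) :
    IsLev (Conc.R2 A M q hq hqM hA) c (Conc.W M q hq hqM f) := by
  refine ⟨by rw [Conc.R2_red_W, hf.1], ?_⟩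
  obtain ⟨h, hh, e⟩ := hf.2
  refine ⟨Conc.W M q hq hqM h, ?_, ?_⟩
  · rw [Conc.mem_R2_O_iff, Conc.W_W]
    exact hh
  · rw [e, map_add, map_one, Algebra.smul_def, Algebra.smul_def, map_mul, AlgEquiv.commutes]

theorem isLev_R1_W {c : Kbar} {f : FN (M * q)} (hf : IsLev (Conc.R2 A M q hq hqM hA) c f) :
    IsLev (Conc.R1 A M q hq hqM hA) c (Conc.W M q hq hqM f) := by
  refine ⟨by rw [Conc.R1_red_W, hf.1], ?_⟩
  obtain ⟨h, hh, e⟩ := hf.2
  refine ⟨Conc.W M q hq hqM h, (Conc.mem_R2_O_iff A M q hq hqM hA h).1 hh, ?_⟩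
  rw [e, map_add, map_one, Algebra.smul_def, Algebra.smul_def, map_mul, AlgEquiv.commutes]

/-- `w` exchanges the depth filtrations of `R1` and `R2`. -/
theorem wKV_mem_Klev_R2 {m : ℕ} {c : Kbar} {x : KV Kbar (FN (M * q)) m}
    (hx : x ∈ Klev (Conc.R1 A M q hq hqM hA) m c) :
    Hecke.wKV M q hq hqM m x ∈ Klev (Conc.R2 A M q hq hqM hA) m c := by
  obtain ⟨f, rfl, hf⟩ := hx
  exact ⟨⟨wUnits M q hq hqM f, wUnits_mem hq hqM m f.2⟩, (wKV_mk hq hqM f).symm,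
    isLev_R2_W A M q hq hqM hA hf⟩

theorem wKV_mem_Klev_R1 {m : ℕ} {c : Kbar} {x : KV Kbar (FN (M * q)) m}
    (hx : x ∈ Klev (Conc.R2 A M q hq hqM hA) m c) :
    Hecke.wKV M q hq hqM m x ∈ Klev (Conc.R1 A M q hq hqM hA) m c := by
  obtain ⟨f, rfl, hf⟩ := hx
  exact ⟨⟨wUnits M q hq hqM f, wUnits_mem hq hqM m f.2⟩, (wKV_mk hq hqM f).symm,
    isLev_R1_W A M q hq hqM hA hf⟩

/-! ### The new part -/

/-- The `q`-new part of `V_m(F(M q))`. -/
def newKV (m : ℕ) : AddSubgroup (KV Kbar (FN (M * q)) m) :=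
  (DR.alphaKV M q m).ker ⊓ ((DR.alphaKV M q m).comp (DR.wKV M q m)).ker

theorem mem_newKV {m : ℕ} {x : KV Kbar (FN (M * q)) m} :
    x ∈ newKV M q m ↔ DR.alphaKV M q m x = 0 ∧ DR.alphaKV M q m (DR.wKV M q m x) = 0 := Iff.rfl

theorem wKV_mem_newKV {m : ℕ} {x : KV Kbar (FN (M * q)) m} (hx : x ∈ newKV M q m) :
    DR.wKV M q m x ∈ newKV M q m := by
  rw [mem_newKV] at hx ⊢
  exact ⟨hx.2, by rw [DR.wKV_wKV]; exact hx.1⟩

include hq hqM in
theorem smul_mem_newKV {m : ℕ} (σ : GQ) {x : KV Kbar (FN (M * q)) m} (hx : x ∈ newKV M q m) :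
    σ • x ∈ newKV M q m := by
  have hD := kvDegen (M := M) (q := q) hq hqM
  rw [mem_newKV] at hx ⊢
  exact ⟨by rw [hD.alpha_galois, hx.1, smul_zero],
    by rw [hD.w_galois, hD.alpha_galois, hx.2, smul_zero]⟩

include hq hqM in
theorem heckeT_mem_newKV {m ℓ : ℕ} [NeZero ℓ] (hℓ : ℓ.Prime) (hℓN : ¬ ℓ ∣ M * q)
    {x : KV Kbar (FN (M * q)) m} (hx : x ∈ newKV M q m) :
    heckeT Kbar (M * q) ℓ m x ∈ newKV M q m := by
  have hD := kvDegen (M := M) (q := q) hq hqM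
  rw [mem_newKV] at hx ⊢
  exact ⟨by rw [hD.alpha_hecke m ℓ hℓ hℓN, hx.1, map_zero],
    by rw [hD.w_hecke m ℓ hℓ hℓN, hD.alpha_hecke m ℓ hℓ hℓN, hx.2, map_zero]⟩

include hq hqM in
/-- `U_q² = 1` on the new part. -/
theorem UqKV_UqKV_of_new {m : ℕ} {x : KV Kbar (FN (M * q)) m} (hx : x ∈ newKV M q m) :
    UqKV M q hq hqM m (UqKV M q hq hqM m x) = x := by
  rw [mem_newKV, interface_wKV_eq hq hqM] at hx
  have hU1 : UqKV M q hq hqM m x = - Hecke.wKV M q hq hqM m x := UqKV_eq_neg_wKV hq hqM hx.2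
  have hU2 : UqKV M q hq hqM m (Hecke.wKV M q hq hqM m x) = - x := by
    have := UqKV_eq_neg_wKV hq hqM (x := Hecke.wKV M q hq hqM m x) (by
      rw [Hecke.wKV_wKV]; exact hx.1)
    rwa [Hecke.wKV_wKV] at this
  rw [hU1, map_neg, hU2, neg_neg]

/-- **The new classes with trivial reduction at `∞` are deep at `∞`.** -/
theorem deep_R1_of_new {m : ℕ} {x : KV Kbar (FN (M * q)) m} (hx : x ∈ newKV M q m)
    (h1 : x ∈ Kone (Conc.R1 A M q hq hqM hA) m) : x ∈ Deep (Conc.R1 A M q hq hqM hA) m := by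
  haveI : Fact q.Prime := ⟨hq⟩
  haveI := charP_residueField A hq hA
  haveI := perfectRing_residueField q A
  exact mem_Deep_of_iterate_eq A M q hq hqM hA h1 (r := 2) two_pos
    (UqKV_UqKV_of_new M q hq hqM hx)

/-- **The new classes with trivial reduction at `0` are deep at `0`.** -/
theorem deep_R2_of_new {m : ℕ} {x : KV Kbar (FN (M * q)) m} (hx : x ∈ newKV M q m)
    (h2 : x ∈ Kone (Conc.R2 A M q hq hqM hA) m) : x ∈ Deep (Conc.R2 A M q hq hqM hA) m := by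
  have hw : Hecke.wKV M q hq hqM m x ∈ newKV M q m := by
    rw [← interface_wKV_eq hq hqM]
    exact wKV_mem_newKV M q hx
  have h1 : Hecke.wKV M q hq hqM m x ∈ Kone (Conc.R1 A M q hq hqM hA) m :=
    mem_Klev_one_iff.1 (wKV_mem_Klev_R1 A M q hq hqM hA (mem_Klev_one_iff.2 h2))
  have h3 := deep_R1_of_new A M q hq hqM hA hw h1
  rw [mem_Deep] at h3 ⊢
  intro c hc
  have := wKV_mem_Klev_R2 A M q hq hqM hA (h3 c hc)
  rwa [Hecke.wKV_wKV] at this

/-- **OUTPUT (U).** -/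
theorem deep_of_new {m : ℕ} {x : KV Kbar (FN (M * q)) m} (hx : x ∈ newKV M q m)
    (h : x ∈ KtorC A M q hq hqM hA m) :
    x ∈ Deep (Conc.R1 A M q hq hqM hA) m ∧ x ∈ Deep (Conc.R2 A M q hq hqM hA) m :=
  ⟨deep_R1_of_new A M q hq hqM hA hx h.1, deep_R2_of_new A M q hq hqM hA hx h.2⟩

/-! ### Inertia -/

/-- `(τ - 1) V ⊆ Kone R1 ∩ Kone R2`. -/
theorem inertia_smul_sub_mem {m : ℕ} (hm : 0 < m) (τ : GQ) (hτ : τ ∈ A.inertiaSubgroupIn ℚ)
    (x : KV Kbar (FN (M * q)) m) : τ • x - x ∈ KtorC A M q hq hqM hA m := by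
  haveI : Fact q.Prime := ⟨hq⟩
  haveI := charP_residueField A hq hA
  haveI := perfectRing_residueField q A
  exact inertia_smul_sub_mem_KtorC A M q hq hqM hA hm τ hτ x

theorem inertia_smul_mem_Deep₁ {m : ℕ} (τ : GQ) (hτ : τ ∈ A.inertiaSubgroupIn ℚ)
    {x : KV Kbar (FN (M * q)) m} (hx : x ∈ Deep (Conc.R1 A M q hq hqM hA) m) :
    τ • x ∈ Deep (Conc.R1 A M q hq hqM hA) m :=
  smul_mem_Deep (compat_R1_of_inertia A M q hq hqM hA τ hτ) hx

theorem inertia_smul_mem_Deep₂ {m : ℕ} (τ : GQ) (hτ : τ ∈ A.inertiaSubgroupIn ℚ)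
    {x : KV Kbar (FN (M * q)) m} (hx : x ∈ Deep (Conc.R2 A M q hq hqM hA) m) :
    τ • x ∈ Deep (Conc.R2 A M q hq hqM hA) m :=
  smul_mem_Deep (compat_R2_of_inertia A M q hq hqM hA τ hτ) hx

end Fermat.Agent.S33.HeckeP
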