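import Fermat.Agent.DR.Gal.DR1

/-!
# S33 / HeckeP : depth of a Kummer class with respect to a reduction.  Definitions.

`R : RedData K F k Fb` a reduction of the function field `F / K` (valuation ring `R.O` over `R.A`).

* `Klev R m c` : the classes of `V_m(F) = KV K F m` with a representative `f`, `red f = 1`, `f - 1 ∈ c • R.O`
  ("depth `≥ v(c)`");   `Klev R m 1 = Kone R m`  (`mem_Klev_one_iff`).
* `Deep R m`   : the classes which belong to `Klev R m c` for EVERY `c ≠ 0`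
  (`⟺` the class becomes an `m`-th power in the completion of `F` at `R.O`).
Both are subgroups, stable under the semilinear automorphisms which are compatible with `R`.
-/

set_option autoImplicit false

namespace Fermat.Agent.S33.HeckeP

open AlgebraicCurve Fermat.Agent.GAL Fermat.Agent.GAL.RED Fermat.Agent.DR.Gal

variable {K F k Fb : Type*} [Field K] [Field F] [Algebra K F] [Field k] [Field Fb] [Algebra k Fb]

/-- `f` reduces to `1` and `f - 1 ∈ c • O`. -/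
def IsLev (R : RedData K F k Fb) (c : K) (f : F) : Prop :=
  R.red f = 1 ∧ ∃ h ∈ R.O, f = 1 + c • h

theorem IsLev.mem {R : RedData K F k Fb} {c : K} {f : F} (h : IsLev R c f) : f ∈ R.O :=
  R.mem_of_red_ne_zero (by rw [h.1]; exact one_ne_zero)

theorem isLev_one (R : RedData K F k Fb) (c : K) : IsLev R c 1 :=
  ⟨R.red_one, 0, R.O.zero_mem, by simp⟩

theorem IsLev.mul {R : RedData K F k Fb} {c : K} {f g : F} (hf : IsLev R c f) (hg : IsLev R c g) :
    IsLev R c (f * g) := by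
  refine ⟨by rw [R.red_mul hf.mem hg.mem, hf.1, hg.1, one_mul], ?_⟩
  obtain ⟨-, h, hh, e⟩ := hf
  obtain ⟨h', hh', e'⟩ := hg.2
  refine ⟨h * g + h', R.O.add_mem _ _ (R.O.mul_mem _ _ hh hg.mem) hh', ?_⟩
  calc f * g = g + c • (h * g) := by rw [e, add_mul, one_mul, smul_mul_assoc]
    _ = 1 + c • h' + c • (h * g) := by
        nth_rewrite 1 [e']
        rfl
    _ = 1 + c • (h * g + h') := by rw [smul_add]; ring

theorem IsLev.inv {R : RedData K F k Fb} {c : K} {f : F} (hf : IsLev R c f) : IsLev R c f⁻¹ := by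
  have h1 : R.red f ≠ 0 := by rw [hf.1]; exact one_ne_zero
  have hf0 : f ≠ 0 := (R.red_ne_zero_iff.1 h1).1
  refine ⟨by rw [R.red_inv, hf.1, inv_one], ?_⟩
  obtain ⟨h, hh, e⟩ := hf.2
  refine ⟨-(h * f⁻¹), R.O.neg_mem _ (R.O.mul_mem _ _ hh (R.inv_mem_of_red_ne_zero h1)), ?_⟩
  have e2 : c • h = f - 1 := by rw [e]; ring
  rw [smul_neg, ← smul_mul_assoc, e2, sub_mul, mul_inv_cancel₀ hf0]
  ring

theorem IsLev.mono {R : RedData K F k Fb} {c c' a : K} (ha : a ∈ R.A) (hc : c = a * c') {f : F}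
    (hf : IsLev R c f) : IsLev R c' f := by
  obtain ⟨h1, h, hh, e⟩ := hf
  exact ⟨h1, a • h, R.smul_mem ha hh, by rw [e, hc, mul_comm, mul_smul]⟩

theorem isLev_one_iff {R : RedData K F k Fb} {f : F} : IsLev R 1 f ↔ R.red f = 1 := by
  refine ⟨fun h => h.1, fun h => ⟨h, f - 1, ?_, by rw [one_smul]; ring⟩⟩
  exact R.O.sub_mem (R.mem_of_red_ne_zero (by rw [h]; exact one_ne_zero)) R.O.one_mem

/-- The classes of depth `≥ v(c)`. -/
def Klev (R : RedData K F k Fb) (m : ℕ) (c : K) : AddSubgroup (KV K F m) where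
  carrier := {x | ∃ f : kummerUnits K F m, KV.mk f = x ∧ IsLev R c ((f : Fˣ) : F)}
  zero_mem' := ⟨1, KV.mk_one, isLev_one R c⟩
  add_mem' := by
    rintro _ _ ⟨f, rfl, hf⟩ ⟨g, rfl, hg⟩
    exact ⟨f * g, KV.mk_mul f g, hf.mul hg⟩
  neg_mem' := by
    rintro _ ⟨f, rfl, hf⟩
    refine ⟨f⁻¹, KV.mk_inv f, ?_⟩
    have : (((f⁻¹ : kummerUnits K F m) : Fˣ) : F) = ((f : Fˣ) : F)⁻¹ := by
      rw [Subgroup.coe_inv, Units.val_inv_eq_inv_val]
    rw [this]
    exact hf.inv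

theorem mem_Klev {R : RedData K F k Fb} {m : ℕ} {c : K} {x : KV K F m} :
    x ∈ Klev R m c ↔ ∃ f : kummerUnits K F m, KV.mk f = x ∧ IsLev R c ((f : Fˣ) : F) := Iff.rfl

theorem Klev_mono (R : RedData K F k Fb) (m : ℕ) {c c' a : K} (ha : a ∈ R.A) (hc : c = a * c') :
    Klev R m c ≤ Klev R m c' := by
  rintro _ ⟨f, rfl, hf⟩
  exact ⟨f, rfl, hf.mono ha hc⟩

theorem mem_Klev_one_iff {R : RedData K F k Fb} {m : ℕ} {x : KV K F m} :
    x ∈ Klev R m 1 ↔ x ∈ Kone R m := by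
  constructor
  · rintro ⟨f, rfl, hf⟩
    exact ⟨f, rfl, hf.1⟩
  · rintro ⟨f, rfl, hf⟩
    exact ⟨f, rfl, isLev_one_iff.2 hf⟩

theorem mem_Kone_of_mem_Klev {R : RedData K F k Fb} {m : ℕ} {c : K} {x : KV K F m}
    (h : x ∈ Klev R m c) : x ∈ Kone R m := by
  obtain ⟨f, rfl, hf⟩ := h
  exact ⟨f, rfl, hf.1⟩

/-- The deep classes: depth `≥ v(c)` for every `c ≠ 0`. -/
def Deep (R : RedData K F k Fb) (m : ℕ) : AddSubgroup (KV K F m) :=
  ⨅ c : {c : K // c ≠ 0}, Klev R m (c : K)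

theorem mem_Deep {R : RedData K F k Fb} {m : ℕ} {x : KV K F m} :
    x ∈ Deep R m ↔ ∀ c : K, c ≠ 0 → x ∈ Klev R m c := by
  rw [Deep, AddSubgroup.mem_iInf]
  exact ⟨fun h c hc => h ⟨c, hc⟩, fun h c => h c c.2⟩

/-- explicit form. -/
theorem mem_Deep_iff {R : RedData K F k Fb} {m : ℕ} {x : KV K F m} :
    x ∈ Deep R m ↔ ∀ c : K, c ≠ 0 → ∃ f : kummerUnits K F m, KV.mk f = x ∧
      R.red ((f : Fˣ) : F) = 1 ∧ ∃ h ∈ R.O, ((f : Fˣ) : F) = 1 + c • h := mem_Deep

theorem mem_Kone_of_mem_Deep {R : RedData K F k Fb} {m : ℕ} {x : KV K F m}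
    (h : x ∈ Deep R m) : x ∈ Kone R m :=
  mem_Kone_of_mem_Klev (mem_Deep.1 h 1 one_ne_zero)

/-- Semilinear automorphisms compatible with `R`. -/
theorem IsLev.smul {R : RedData K F k Fb} {g : SemilinearAut K F} {gb : Fb ≃+* Fb}
    (hg : Compat R g gb) {c : K} {f : F} (hf : IsLev R c f) :
    IsLev R (SemilinearAut.baseAut g c) (g • f) := by
  refine ⟨by rw [hg.red f hf.mem, hf.1, map_one], ?_⟩
  obtain ⟨h, hh, e⟩ := hf.2
  refine ⟨g • h, hg.mem h hh, ?_⟩
  rw [e, smul_add, smul_one, Algebra.smul_def, Algebra.smul_def, smul_mul',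
    SemilinearAut.smul_algebraMap]

theorem smul_mem_Klev {R : RedData K F k Fb} {g : SemilinearAut K F} {gb : Fb ≃+* Fb}
    (hg : Compat R g gb) {m : ℕ} {c : K} {x : KV K F m} (hx : x ∈ Klev R m c) :
    g • x ∈ Klev R m (SemilinearAut.baseAut g c) := by
  obtain ⟨f, rfl, hf⟩ := hx
  exact ⟨⟨semilinearUnits g f, semilinearUnits_mem g _ f.2⟩, (KV.semilinear_smul_mk g f).symm,
    hf.smul hg⟩

theorem smul_mem_Deep {R : RedData K F k Fb} {g : SemilinearAut K F} {gb : Fb ≃+* Fb}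
    (hg : Compat R g gb) {m : ℕ} {x : KV K F m} (hx : x ∈ Deep R m) : g • x ∈ Deep R m := by
  rw [mem_Deep] at hx ⊢
  intro c hc
  have h0 : (SemilinearAut.baseAut g).symm c ≠ 0 := by
    intro h
    apply hc
    have := congrArg (SemilinearAut.baseAut g) h
    rwa [RingEquiv.apply_symm_apply, map_zero] at this
  have := smul_mem_Klev hg (hx _ h0)
  rwa [RingEquiv.apply_symm_apply] at this

end Fermat.Agent.S33.HeckeP
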