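import Fermat.Agent.DR.Hecke.RedUq

/-!
# S33 / HeckeP : the formal contraction lemma

`A` a valuation subring of `K`, `gRing A ⊆ K((t))` the Gauss ring, `ζ` a primitive `q`-th root of unity, `l = ζ - 1`.
* `exists_twist_sub` : `H(u t) - H(t) ∈ l • gRing` if `u ^ n - 1 ∈ l A` for all `n`;
* `prod_one_add_mem` : (pure algebra) `∏_{i<q} (1 + c (H + l K_i)) ∈ 1 + c e B` if `e ∣ l`, `e ∣ q`, `e ∣ c ^ (q - 1)`;
* `exists_of_qExpand_eq_prod` : if `U(t^q) = ∏_{i<q} G(ζ^i t)`, `G = 1 + c H`, then `U = 1 + c e H'`.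
-/

set_option autoImplicit false
set_option linter.unusedSectionVars false

noncomputable section

namespace Fermat.Agent.S33.HeckeP

open ModularCurve Fermat.Agent.GAL.Gauss Fermat.Agent.DR

section formal

variable {K : Type*} [Field K] (A : ValuationSubring K)

theorem C_mul_mem_gRing {c : K} (hc : c ∈ A) {x : LaurentSeries K} (hx : x ∈ gRing A) :
    HahnSeries.C c * x ∈ gRing A :=
  (gRing A).mul_mem ((C_mem_gRing_iff A c).2 hc) hx

/-- series with coefficients in `A`. -/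
theorem exists_twist_iA {u l : K} (hu0 : u ≠ 0) (hl : ∀ n : ℤ, ∃ a ∈ A, u ^ n - 1 = l * a)
    (y : LaurentSeries ↥A) :
    ∃ y' : LaurentSeries ↥A,
      Fermat.Agent.S24.twist u hu0 (iA A y) = iA A y + HahnSeries.C l * iA A y' := by
  choose a ha hla using hl
  refine ⟨⟨fun n => ⟨a n, ha n⟩ * y.coeff n, y.isPWO_support.mono ?_⟩, ?_⟩
  · intro n hn h0
    apply hn
    show (⟨a n, ha n⟩ : ↥A) * y.coeff n = 0
    rw [h0, mul_zero]
  · ext n
    rw [Fermat.Agent.S24.twist_coeff, HahnSeries.coeff_add, HahnSeries.C_mul_eq_smul,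
      HahnSeries.coeff_smul, iA_coeff, iA_coeff, smul_eq_mul]
    show u ^ n * (y.coeff n : K) = (y.coeff n : K) + l * (a n * (y.coeff n : K))
    have := hla n
    linear_combination (y.coeff n : K) * this

/-- **`H(u t) ≡ H(t)` modulo `l`.** -/
theorem exists_twist_sub {u l : K} (hu0 : u ≠ 0) (hu : u ∈ A) (hu' : u⁻¹ ∈ A) (hl0 : l ≠ 0)
    (hl : ∀ n : ℤ, ∃ a ∈ A, u ^ n - 1 = l * a) {H : LaurentSeries K} (hH : H ∈ gRing A) :
    ∃ Kk ∈ gRing A, Fermat.Agent.S24.twist u hu0 H = H + HahnSeries.C l * Kk := by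
  obtain ⟨z, g, hg, h⟩ := hH
  obtain ⟨z', hz'⟩ := exists_twist_iA A hu0 hl z
  obtain ⟨g', hg'⟩ := exists_twist_iA A hu0 hl g
  set gu := Fermat.Agent.S28.twist (Conc.Series_unit A hu0 hu hu') g with hgu
  have hgu1 : iA A gu = iA A g + HahnSeries.C l * iA A g' := by
    rw [hgu, Conc.Series_iA_twist, hg']
  have hgu2 : pA A gu ≠ 0 := by
    rw [hgu, Conc.Series_pA_twist]
    exact Conc.Series_twist_ne_zero _ hg
  have hHu : (iA A g + HahnSeries.C l * iA A g') * Fermat.Agent.S24.twist u hu0 H =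
      iA A z + HahnSeries.C l * iA A z' := by
    rw [← hg', ← hz', ← map_mul, h]
  have hC : HahnSeries.C l * HahnSeries.C l⁻¹ = (1 : LaurentSeries K) := by
    rw [← map_mul, mul_inv_cancel₀ hl0, map_one]
  refine ⟨HahnSeries.C l⁻¹ * (Fermat.Agent.S24.twist u hu0 H - H),
    ⟨g * z' - g' * z, gu * g, ?_, ?_⟩, ?_⟩
  · rw [map_mul]
    exact mul_ne_zero hgu2 hg
  · rw [map_mul, map_sub, map_mul, map_mul, hgu1]
    linear_combination (HahnSeries.C l⁻¹ * iA A g) * hHu -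
      (HahnSeries.C l⁻¹ * (iA A g + HahnSeries.C l * iA A g')) * h +
      (iA A g * iA A z' - iA A g' * iA A z) * hC
  · linear_combination (H - Fermat.Agent.S24.twist u hu0 H) * hC

end formal

section algebra

/-- (pure algebra) -/
theorem prod_one_add_mem {B : Type*} [CommRing B] {q : ℕ} (hq : q.Prime) (c e l H : B)
    (Kk : Fin q → B) (h1 : e ∣ l) (h2 : e ∣ (q : B)) (h3 : e ∣ c ^ (q - 1)) :
    c * e ∣ ∏ i : Fin q, (1 + c * (H + l * Kk i)) - 1 := by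
  rw [← Ideal.mem_span_singleton, ← Ideal.Quotient.eq_zero_iff_mem, map_sub, map_one, map_prod,
    sub_eq_zero]
  set J := Ideal.span {c * e} with hJ
  have hmem : ∀ x : B, c * e ∣ x → Ideal.Quotient.mk J x = 0 := fun x hx => by
    rw [Ideal.Quotient.eq_zero_iff_mem, hJ, Ideal.mem_span_singleton]
    exact hx
  have hfac : ∀ i : Fin q, Ideal.Quotient.mk J (1 + c * (H + l * Kk i)) =
      Ideal.Quotient.mk J (1 + c * H) := by
    intro i
    rw [← sub_eq_zero, ← map_sub]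
    apply hmem
    obtain ⟨a, rfl⟩ := h1
    exact ⟨a * Kk i, by ring⟩
  rw [Finset.prod_congr rfl (fun i _ => hfac i), Finset.prod_const, Finset.card_univ,
    Fintype.card_fin, ← map_pow]
  obtain ⟨r, hr⟩ := exists_add_pow_prime_eq hq (1 : B) (c * H)
  rw [hr, ← sub_eq_zero, ← map_one (Ideal.Quotient.mk J), ← map_sub]
  apply hmem
  obtain ⟨a, ha⟩ := h2
  obtain ⟨b, hb⟩ := h3
  have hcq : c ^ q = c * c ^ (q - 1) := by
    rw [← pow_succ', Nat.sub_add_cancel hq.one_le]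
  refine ⟨b * H ^ q + a * H * r, ?_⟩
  rw [one_pow, mul_pow, hcq, hb, ha]
  ring

end algebra

section main

variable {K : Type*} [Field K] (A : ValuationSubring K)

theorem twist_C {u : K} (hu0 : u ≠ 0) (c : K) :
    Fermat.Agent.S24.twist u hu0 (HahnSeries.C c) = HahnSeries.C c := by
  ext n
  rw [Fermat.Agent.S24.twist_coeff, HahnSeries.C_apply, HahnSeries.coeff_single]
  split_ifs with h
  · subst h
    simp
  · simp

/-- a root of unity lies in `A`. -/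
theorem mem_of_pow_eq_one' {c : K} {n : ℕ} (hn : 0 < n) (hc : c ^ n = 1) : c ∈ A := by
  rcases A.mem_or_inv_mem c with h | h
  · exact h
  · have : c = c⁻¹ ^ (n - 1) := by
      have hc0 : c ≠ 0 := by
        rintro rfl
        rw [zero_pow hn.ne'] at hc
        exact zero_ne_one hc
      rw [inv_pow]
      apply eq_inv_of_mul_eq_one_left
      rw [← pow_succ', Nat.sub_add_cancel hn, hc]
    rw [this]
    exact pow_mem h _

/-- `ζ ^ k - 1 ∈ (ζ - 1) A`. -/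
theorem exists_zpow_sub_one {q : ℕ} (hq : 0 < q) {ζ : K} (hζ : ζ ^ q = 1) (k : ℤ) :
    ∃ a ∈ A, ζ ^ k - 1 = (ζ - 1) * a := by
  have hζA : ζ ∈ A := mem_of_pow_eq_one' A hq hζ
  have hζ0 : ζ ≠ 0 := by
    rintro rfl
    rw [zero_pow hq.ne'] at hζ
    exact zero_ne_one hζ
  have hnat : ∀ r : ℕ, ∃ a ∈ A, ζ ^ r - 1 = (ζ - 1) * a := fun r =>
    ⟨∑ j ∈ Finset.range r, ζ ^ j, A.toSubring.sum_mem fun j _ => pow_mem hζA j,
      (mul_geom_sum ζ r).symm⟩
  obtain ⟨r, rfl | rfl⟩ := k.eq_nat_or_neg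
  · rw [zpow_natCast]
    exact hnat r
  · obtain ⟨a, ha, h⟩ := hnat r
    have hinv : (ζ ^ r)⁻¹ ∈ A :=
      mem_of_pow_eq_one' A hq (by rw [inv_pow, ← pow_mul, mul_comm, pow_mul, hζ, one_pow, inv_one])
    refine ⟨-((ζ ^ r)⁻¹ * a), A.neg_mem _ (A.mul_mem _ _ hinv ha), ?_⟩
    rw [zpow_neg, zpow_natCast]
    have h0 : ζ ^ r ≠ 0 := pow_ne_zero r hζ0
    field_simp
    linear_combination -h

/-- **The formal contraction lemma.** -/
theorem exists_of_qExpand_eq_prod {q : ℕ} [NeZero q] (hq : q.Prime) {ζ : K}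
    (hζ : IsPrimitiveRoot ζ q) {c e : K} (hc : c ∈ A) (he : e ∈ A) (hc0 : c ≠ 0) (he0 : e ≠ 0)
    (h1 : ∃ a ∈ A, ζ - 1 = e * a) (h2 : ∃ a ∈ A, (q : K) = e * a)
    (h3 : ∃ a ∈ A, c ^ (q - 1) = e * a)
    {H U : LaurentSeries K} (hH : H ∈ gRing A)
    (h : qExpand K q U = ∏ i : Fin q, Fermat.Agent.S24.twist (ζ ^ (i : ℕ))
      (pow_ne_zero _ (hζ.ne_zero hq.ne_zero)) (1 + HahnSeries.C c * H)) :
    ∃ H' ∈ gRing A, U = 1 + HahnSeries.C (c * e) * H' := by
  have hζ0 := hζ.ne_zero hq.ne_zero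
  have hl0 : ζ - 1 ≠ 0 := sub_ne_zero.2 (hζ.ne_one hq.one_lt)
  have hpow : ∀ i : ℕ, (ζ ^ i) ^ q = 1 := fun i => by
    rw [← pow_mul, mul_comm, pow_mul, hζ.pow_eq_one, one_pow]
  have hmem : ∀ i : ℕ, ζ ^ i ∈ A := fun i => mem_of_pow_eq_one' A hq.pos (hpow i)
  have hmem' : ∀ i : ℕ, (ζ ^ i)⁻¹ ∈ A := fun i =>
    mem_of_pow_eq_one' A hq.pos (by rw [inv_pow, hpow i, inv_one])
  have hlA : ζ - 1 ∈ A := A.sub_mem (by simpa using hmem 1) A.one_mem
  have hex : ∀ i : Fin q, ∃ Kk ∈ gRing A, Fermat.Agent.S24.twist (ζ ^ (i : ℕ))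
      (pow_ne_zero _ hζ0) H = H + HahnSeries.C (ζ - 1) * Kk := fun i =>
    exists_twist_sub A (pow_ne_zero _ hζ0) (hmem i) (hmem' i) hl0 (fun n => by
      rw [← zpow_natCast, ← zpow_mul]
      exact exists_zpow_sub_one A hq.pos hζ.pow_eq_one _) hH
  choose Kk hKk hKk' using hex
  -- work in the ring `gRing A`
  let cB : ↥(gRing A) := ⟨HahnSeries.C c, (C_mem_gRing_iff A c).2 hc⟩
  let eB : ↥(gRing A) := ⟨HahnSeries.C e, (C_mem_gRing_iff A e).2 he⟩
  let lB : ↥(gRing A) := ⟨HahnSeries.C (ζ - 1), (C_mem_gRing_iff A _).2 hlA⟩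
  have d1 : eB ∣ lB := by
    obtain ⟨a, ha, e1⟩ := h1
    exact ⟨⟨HahnSeries.C a, (C_mem_gRing_iff A a).2 ha⟩, Subtype.ext (by
      show HahnSeries.C (ζ - 1) = HahnSeries.C e * HahnSeries.C a
      rw [e1, map_mul])⟩
  have d2 : eB ∣ (q : ↥(gRing A)) := by
    obtain ⟨a, ha, e1⟩ := h2
    exact ⟨⟨HahnSeries.C a, (C_mem_gRing_iff A a).2 ha⟩, Subtype.ext (by
      show ((q : ↥(gRing A)) : LaurentSeries K) = HahnSeries.C e * HahnSeries.C a
      rw [← map_mul, ← e1, map_natCast, Subring.coe_natCast])⟩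
  have d3 : eB ∣ cB ^ (q - 1) := by
    obtain ⟨a, ha, e1⟩ := h3
    exact ⟨⟨HahnSeries.C a, (C_mem_gRing_iff A a).2 ha⟩, Subtype.ext (by
      show ((cB ^ (q - 1) : ↥(gRing A)) : LaurentSeries K) = HahnSeries.C e * HahnSeries.C a
      rw [← map_mul, ← e1, map_pow, SubmonoidClass.coe_pow])⟩
  obtain ⟨HB, hHB⟩ := prod_one_add_mem hq cB eB lB ⟨H, hH⟩ (fun i => ⟨Kk i, hKk i⟩) d1 d2 d3
  have hHB' := congrArg (Subtype.val : ↥(gRing A) → LaurentSeries K) hHB
  have hprod : qExpand K q U - 1 = HahnSeries.C (c * e) * (HB : LaurentSeries K) := by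
    rw [h, map_mul]
    refine Eq.trans ?_ hHB'
    show _ = ((∏ i : Fin q, (1 + cB * ((⟨H, hH⟩ : ↥(gRing A)) + lB * ⟨Kk i, hKk i⟩)) :
      ↥(gRing A)) : LaurentSeries K) - 1
    rw [SubmonoidClass.coe_finsetProd]
    congr 1
    refine Finset.prod_congr rfl fun i _ => ?_
    rw [map_add, map_one, map_mul, twist_C, hKk' i]
    rfl
  have hce : c * e ≠ 0 := mul_ne_zero hc0 he0
  have hC : HahnSeries.C (c * e) * HahnSeries.C (c * e)⁻¹ = (1 : LaurentSeries K) := by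
    rw [← map_mul, mul_inv_cancel₀ hce, map_one]
  refine ⟨HahnSeries.C (c * e)⁻¹ * (U - 1), Conc.mem_gRing_of_qExpand A q ?_, ?_⟩
  · have : qExpand K q (HahnSeries.C (c * e)⁻¹ * (U - 1)) = (HB : LaurentSeries K) := by
      rw [map_mul, map_sub, map_one, qExpand_C, hprod]
      linear_combination (HB : LaurentSeries K) * hC
    rw [this]
    exact HB.2
  · linear_combination (1 - U) * hC

end main

end Fermat.Agent.S33.HeckeP
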