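import Fermat.Agent.S33.HeckeP.Defs
import Fermat.Agent.S33.HeckeP.Series
import Fermat.Agent.DR.Hecke.DR3
import Fermat.Agent.DR.Conc.Rank

/-!
# S33 / HeckeP : `U_q` contracts the depth at `∞` (residue characteristic `q`, any exponent `m`)

`isLev_UqF`, `UqKV_mem_Klev` : depth `≥ v(c)` ⟹ depth of `U_q x` is `≥ v(c e)` for every `e` dividing `ζ - 1`, `q` and `c ^ (q - 1)`.
`mem_Deep_of_UqKV_periodic` : a class of `Kone R1` which is fixed by a positive power of `U_q` is deep.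
-/

set_option autoImplicit false
set_option linter.unusedSectionVars false
set_option linter.style.haveILetI false

noncomputable section

namespace Fermat.Agent.S33.HeckeP

open AlgebraicCurve ModularCurve Fermat.Agent.S24 Fermat.Agent.GAL Fermat.Agent.GAL.Hecke
  Fermat.Agent.GAL.Gauss Fermat.Agent.DR Fermat.Agent.DR.Gal Fermat.Agent.DR.Hecke

variable (A : ValuationSubring Kbar) (M q : ℕ) [NeZero M] [NeZero q] (hq : q.Prime)
  (hqM : ¬ q ∣ M) (hA : A.LiesOverPrime q)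

theorem coe_smul_FN (N : ℕ) (c : Kbar) (h : FN N) :
    ((c • h : FN N) : LaurentSeries Kbar) = HahnSeries.C c * (h : LaurentSeries Kbar) := by
  rw [Algebra.smul_def, IntermediateField.coe_mul, Conc.coe_algebraMap_FN]

section Frob

variable [Fact q.Prime] [CharP (IsLocalRing.ResidueField ↥A) q]
  [PerfectRing (IsLocalRing.ResidueField ↥A) q]

/-- **Contraction** on functions. -/
theorem isLev_UqF {ζ : Kbar} (hζ : IsPrimitiveRoot ζ q) {c e : Kbar} (hc : c ∈ A) (he : e ∈ A)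
    (hc0 : c ≠ 0) (he0 : e ≠ 0) (h1 : ∃ a ∈ A, ζ - 1 = e * a) (h2 : ∃ a ∈ A, (q : Kbar) = e * a)
    (h3 : ∃ a ∈ A, c ^ (q - 1) = e * a) (g : (FN (M * q))ˣ)
    (hg : IsLev (Conc.R1 A M q hq hqM hA) c (g : FN (M * q))) :
    IsLev (Conc.R1 A M q hq hqM hA) (c * e) ((UqF M q hq hqM g : (FN (M * q))ˣ) : FN (M * q)) := by
  obtain ⟨hU, hUred⟩ := R1_red_UqF A hq hA M hqM g hg.mem
  refine ⟨by rw [hUred, hg.1, map_one], ?_⟩
  obtain ⟨h, hh, e1⟩ := hg.2
  have hcoe : (((g : (FN (M * q))ˣ) : FN (M * q)) : LaurentSeries Kbar) =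
      1 + HahnSeries.C c * (h : LaurentSeries Kbar) := by
    rw [e1, IntermediateField.coe_add, IntermediateField.coe_one, coe_smul_FN]
  have key := qExpand_UqF hq hqM hζ g
  rw [hcoe] at key
  obtain ⟨H', hH', hUH⟩ := exists_of_qExpand_eq_prod A hq hζ hc he hc0 he0 h1 h2 h3
    ((Conc.mem_R1_O_iff A M q hq hqM hA h).1 hh) key
  have hce : c * e ≠ 0 := mul_ne_zero hc0 he0
  have hC : HahnSeries.C (c * e)⁻¹ * HahnSeries.C (c * e) = (1 : LaurentSeries Kbar) := by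
    rw [← map_mul, inv_mul_cancel₀ hce, map_one]
  refine ⟨(c * e)⁻¹ • (((UqF M q hq hqM g : (FN (M * q))ˣ) : FN (M * q)) - 1), ?_, ?_⟩
  · rw [Conc.mem_R1_O_iff, coe_smul_FN]
    have e2 : ((((UqF M q hq hqM g : (FN (M * q))ˣ) : FN (M * q)) - 1 : FN (M * q)) :
        LaurentSeries Kbar) = HahnSeries.C (c * e) * H' := by
      have : ((((UqF M q hq hqM g : (FN (M * q))ˣ) : FN (M * q)) - 1 : FN (M * q)) :
        LaurentSeries Kbar) = (((UqF M q hq hqM g : (FN (M * q))ˣ) : FN (M * q)) :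
          LaurentSeries Kbar) - 1 := rfl
      rw [this, hUH]
      ring
    have : HahnSeries.C (c * e)⁻¹ * (HahnSeries.C (c * e) * H') = H' := by
      linear_combination H' * hC
    rw [e2, this]
    exact hH'
  · rw [Algebra.smul_def, Algebra.smul_def, ← mul_assoc, ← map_mul, mul_inv_cancel₀ hce, map_one]
    ring

/-- **Contraction** on classes. -/
theorem UqKV_mem_Klev {ζ : Kbar} (hζ : IsPrimitiveRoot ζ q) {c e : Kbar} (hc : c ∈ A) (he : e ∈ A)
    (hc0 : c ≠ 0) (he0 : e ≠ 0) (h1 : ∃ a ∈ A, ζ - 1 = e * a) (h2 : ∃ a ∈ A, (q : Kbar) = e * a)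
    (h3 : ∃ a ∈ A, c ^ (q - 1) = e * a) {m : ℕ} {x : KV Kbar (FN (M * q)) m}
    (hx : x ∈ Klev (Conc.R1 A M q hq hqM hA) m c) :
    UqKV M q hq hqM m x ∈ Klev (Conc.R1 A M q hq hqM hA) m (c * e) := by
  obtain ⟨g, rfl, hg⟩ := hx
  exact ⟨⟨UqF M q hq hqM g, UqF_mem hq hqM m g.2⟩, (UqKV_mk hq hqM g).symm,
    isLev_UqF A M q hq hqM hA hζ hc he hc0 he0 h1 h2 h3 g hg⟩

end Frob

end Fermat.Agent.S33.HeckeP
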